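/-
S28 (Igusa), package M4a, sub-package (B_M), helper8.

For a prime `p` not dividing `M` (and `p * M` invertible in the algebraically closed field `K`):
if `j(q^p) ∉ K(j(q))` then `j(q^p) ∉ K(j(q^d) : d ∣ M)`.

Proof (swap-free variant of helper28's argument, as suggested by helper19): by the degree step
(helper53), `Φ_p(X, j(q^p))` is the minimal polynomial of `j(q)` over `E = K(j(q^p))`, and
`j(q^{p²})` is another root of it. Hence there is an embedding `θ` of `K(j(q^d) : d ∣ M)` (if it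
contains `j(q^p)`) into an algebraic closure `Ω` of `K((q))` which is `q ↦ q^M` on `E` and sends
`j(q)` to `j(q^{p² M})`. By the factorisation of the modular polynomials `Φ_r`, `r ∣ M`, every
generator `j(q^d)` goes to some `j(c q^k)` with `p² (M / d) ∣ k`. So the image of `θ` lies in
the image of `K((q^{p²}))`, but `θ (j(q^p)) = j(q^{p M})` does not.
-/
import Mathlib
import Fermat.Agent.S28.Formal
import Fermat.Agent.S28.H53.Step

set_option autoImplicit false

noncomputable section

namespace Fermat.Agent.S28.H8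

open ModularCurve Polynomial Fermat.Agent.S28

section General

/-- `j(q^k)` in terms of `vq`. -/
theorem jS_one_eq_vq {R : Type*} [CommRing R] (k : ℕ) : jS R 1 k = vq k (jqModC R) := by
  rw [jS, qSub_apply, qScale_one]

theorem vq_jS_one {R : Type*} [CommRing R] {m k : ℕ} (hm : m ≠ 0) (hk : k ≠ 0) :
    vq m (jS R 1 k) = jS R 1 (m * k) := by
  rw [jS_one_eq_vq, jS_one_eq_vq, vq_vq m k hm hk]

theorem jS_eq_vq_of_dvd {R : Type*} [CommRing R] (c : Rˣ) {n k : ℕ} (hn : n ≠ 0) (hk : k ≠ 0)
    (h : n ∣ k) : jS R c k = vq n (jS R c (k / n)) := by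
  obtain ⟨t, rfl⟩ := h
  have ht : t ≠ 0 := fun h0 => hk (by rw [h0, mul_zero])
  rw [Nat.mul_div_cancel_left t (Nat.pos_of_ne_zero hn), jS, jS, qSub_apply, qSub_apply,
    vq_vq n t hn ht]

/-- A root of a monic `Φ(X, t)` with `t` integral is integral. -/
theorem isIntegral_of_evalY_eval_eq_zero {F L : Type*} [Field F] [Field L] [Algebra F L]
    {Φ : Polynomial (Polynomial ℤ)} (hΦ : Φ.Monic) {s t : L} (ht : IsIntegral F t)
    (h : (evalY t Φ).eval s = 0) : IsIntegral F s := by
  have hs : IsIntegral (integralClosure F L) s := by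
    refine ⟨evalY (⟨t, ht⟩ : integralClosure F L) Φ, H53.evalY_monic _ hΦ, ?_⟩
    rw [eval₂_eq_eval_map, map_evalY]
    exact h
  exact isIntegral_trans s hs

end General

section Field

variable {K : Type} [Field K]

/-- All `j(q^d)`, `d ∣ M`, are integral over a subfield over which `j(q)` is integral. -/
theorem isIntegral_jS (E : IntermediateField K (LaurentSeries K))
    (hj : IsIntegral E (jqModC K)) (M : ℕ)
    (hmod : ∀ r : ℕ, r.Prime → r ∣ M → ∃ Φ, IsModPoly r Φ) :
    ∀ d : ℕ, d ∣ M → d ≠ 0 → IsIntegral E (jS K 1 d) := by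
  intro d
  induction d using Nat.strong_induction_on with
  | _ d ih =>
    intro hdM hd0
    rcases eq_or_ne d 1 with rfl | hd1
    · rw [jS_one_one]; exact hj
    · have hr : d.minFac.Prime := Nat.minFac_prime hd1
      obtain ⟨d', hd'⟩ := Nat.minFac_dvd d
      have hd'0 : d' ≠ 0 := fun h0 => hd0 (by rw [hd', h0, mul_zero])
      have hd'M : d' ∣ M := (Dvd.intro_left _ hd'.symm).trans hdM
      have hd'lt : d' < d := by
        have h2 := hr.two_le
        calc d' < d.minFac * d' := by nlinarith [Nat.pos_of_ne_zero hd'0]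
          _ = d := hd'.symm
      obtain ⟨Φ, hΦ⟩ := hmod d.minFac hr ((Nat.minFac_dvd d).trans hdM)
      have hrel : (evalY (jS K 1 d') Φ).eval (jS K 1 d) = 0 := by
        have := (hΦ.eval_jS hr (1 : Kˣ) d' hd'0).2
        rwa [one_pow, mul_comm d' d.minFac, ← hd'] at this
      exact isIntegral_of_evalY_eval_eq_zero hΦ.monic (ih d' hd'lt hd'M hd'0) hrel

variable [IsAlgClosed K]

theorem exists_unit_pow_eq (c : Kˣ) {r : ℕ} (hr : 0 < r) : ∃ c₁ : Kˣ, c₁ ^ r = c := by
  obtain ⟨z, hz⟩ := IsAlgClosed.exists_pow_nat_eq (c : K) hr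
  have hz0 : z ≠ 0 := by
    rintro rfl
    rw [zero_pow hr.ne'] at hz
    exact c.ne_zero hz.symm
  exact ⟨Units.mk0 z hz0, Units.ext (by simpa using hz)⟩

/-- Root enumeration: the roots of `Φ_r(X, j(c q^k))`, `r ∣ k`, in any field containing `K((q))`
are of the form `j(c' q^{k'})` with `k' = k r` or `k' = k / r`. -/
theorem exists_jS_of_root {Ω : Type*} [Field Ω] (ι : LaurentSeries K →+* Ω) {r : ℕ}
    (hr : r.Prime) {Φ : Polynomial (Polynomial ℤ)} (hΦ : IsModPoly r Φ) (ζ : Kˣ)
    (hζ : IsPrimitiveRoot ζ r) (c : Kˣ) {k : ℕ} (hk : k ≠ 0) (hrk : r ∣ k) {ω : Ω}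
    (hω : (evalY (ι (jS K c k)) Φ).eval ω = 0) :
    ∃ (c' : Kˣ) (k' : ℕ), k' ≠ 0 ∧ (k' = k * r ∨ k' * r = k) ∧ ω = ι (jS K c' k') := by
  obtain ⟨m, rfl⟩ := hrk
  have hm : m ≠ 0 := fun h0 => hk (by rw [h0, mul_zero])
  obtain ⟨c₁, rfl⟩ := exists_unit_pow_eq c hr.pos
  have hfact := hΦ.fact_qSub hr K ζ hζ c₁ m hm
  rw [mul_comm r m, ← map_evalY ι, hfact] at hω
  simp only [Polynomial.map_mul, Polynomial.map_sub, Polynomial.map_X, Polynomial.map_C,
    Polynomial.map_prod, eval_mul, eval_sub, eval_X, eval_C, eval_prod, mul_eq_zero,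
    Finset.prod_eq_zero_iff, sub_eq_zero] at hω
  rcases hω with h | ⟨b, -, h⟩
  · exact ⟨c₁ ^ (r * r), m * (r * r),
      Nat.mul_ne_zero hm (Nat.mul_ne_zero hr.ne_zero hr.ne_zero), Or.inl (by ring), h⟩
  · exact ⟨ζ ^ b * c₁, m, hm, Or.inr (by ring), h⟩

/-- Core of `(B_M)`, with an arbitrary algebraically closed field `Ω` receiving `K((q))`. -/
theorem core (Ω : Type) [Field Ω] [IsAlgClosed Ω] (ι : LaurentSeries K →+* Ω) (p M : ℕ)
    (hp : p.Prime) (hM : M ≠ 0) (hpM : ¬ p ∣ M) (hchar : ((p * M : ℕ) : K) ≠ 0)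
    (hmod : ∀ r : ℕ, r.Prime → r ∣ p * M → ∃ Φ, IsModPoly r Φ)
    (hB : jS K 1 p ∉ IntermediateField.adjoin K {jqModC K})
    (hmem : jS K 1 p ∈ modularFunctionFieldFullC K M) : False := by
  classical
  have hp0 : p ≠ 0 := hp.ne_zero
  have : NeZero p := ⟨hp0⟩
  have : NeZero M := ⟨hM⟩
  -- primitive roots of unity
  have hroot : ∀ r : ℕ, r.Prime → r ∣ p * M → ∃ ζ : Kˣ, IsPrimitiveRoot ζ r := by
    intro r hr hrd
    have hrK : (r : K) ≠ 0 := by
      obtain ⟨t, ht⟩ := hrd
      intro h0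
      apply hchar
      rw [ht, Nat.cast_mul, h0, zero_mul]
    have : NeZero (r : K) := ⟨hrK⟩
    obtain ⟨ζ, hζ⟩ := HasEnoughRootsOfUnity.exists_primitiveRoot K r
    refine ⟨(hζ.isUnit hr.ne_zero).unit, ?_⟩
    rw [← IsPrimitiveRoot.coe_units_iff]
    exact hζ
  obtain ⟨Φ, hΦ⟩ := hmod p hp (dvd_mul_right p M)
  obtain ⟨ζ, hζ⟩ := hroot p hp (dvd_mul_right p M)
  have hjSp : jS K 1 p = qExpand K p (jqModC K) := by
    rw [jS_one_eq_jqNModC]; rfl
  rw [hjSp] at hB hmem
  have hjpE : qExpand K p (jqModC K) ∈ IntermediateField.adjoin K {qExpand K p (jqModC K)} :=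
    IntermediateField.subset_adjoin K _ rfl
  have hmin := H53.minpoly_jq_adjoin K hΦ ζ hζ hB
  have hjint : IsIntegral (IntermediateField.adjoin K {qExpand K p (jqModC K)}) (jqModC K) := by
    by_contra h
    have h0 := minpoly.eq_zero h
    rw [hmin] at h0
    exact (H53.evalY_monic _ hΦ.monic).ne_zero h0
  -- the twisted algebra structure on `Ω`
  let _ : Algebra (IntermediateField.adjoin K {qExpand K p (jqModC K)}) Ω :=
    (ι.comp ((vq M).comp (algebraMap (IntermediateField.adjoin K {qExpand K p (jqModC K)})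
      (LaurentSeries K)))).toAlgebra
  have hφ₀ : ∀ e : IntermediateField.adjoin K {qExpand K p (jqModC K)},
      algebraMap (IntermediateField.adjoin K {qExpand K p (jqModC K)}) Ω e =
        ι (vq M (e : LaurentSeries K)) := fun e => rfl
  have hSint : ∀ s ∈ divisorExpansionsC K M,
      IsIntegral (IntermediateField.adjoin K {qExpand K p (jqModC K)}) s ∧
        ((minpoly (IntermediateField.adjoin K {qExpand K p (jqModC K)}) s).map
          (algebraMap (IntermediateField.adjoin K {qExpand K p (jqModC K)}) Ω)).Splits := by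
    rintro s ⟨d, hd0, hdM, rfl⟩
    refine ⟨?_, IsAlgClosed.splits _⟩
    have := isIntegral_jS _ hjint M (fun r hr hrM => hmod r hr (hrM.mul_left p)) d hdM
      (NeZero.ne d)
    rwa [jS_one_eq_jqNModC] at this
  have hgen : ∀ d : ℕ, d ∣ M → jS K 1 d ∈
      IntermediateField.adjoin (IntermediateField.adjoin K {qExpand K p (jqModC K)})
        (divisorExpansionsC K M) := by
    intro d hdM
    have hd0 : d ≠ 0 := ne_zero_of_dvd_ne_zero hM hdM
    have : NeZero d := ⟨hd0⟩
    exact IntermediateField.subset_adjoin _ _ ⟨d, inferInstance, hdM, by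
      rw [jS_one_eq_jqNModC]; rfl⟩
  have hjmem : jqModC K ∈
      IntermediateField.adjoin (IntermediateField.adjoin K {qExpand K p (jqModC K)})
        (divisorExpansionsC K M) := by
    have := hgen 1 (one_dvd M)
    rwa [jS_one_one] at this
  have hy : aeval (ι (jS K 1 (M * p * p)))
      (minpoly (IntermediateField.adjoin K {qExpand K p (jqModC K)}) (jqModC K)) = 0 := by
    rw [hmin, aeval_def, eval₂_eq_eval_map, map_evalY, hφ₀]
    have h1 : vq M (qExpand K p (jqModC K)) = jS K 1 (M * p) := by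
      rw [← hjSp, vq_jS_one hM hp0]
    have h2 := (hΦ.eval_jS hp (1 : Kˣ) (M * p) (Nat.mul_ne_zero hM hp0)).2
    rw [one_pow] at h2
    show (evalY (ι (vq M (qExpand K p (jqModC K)))) Φ).eval (ι (jS K 1 (M * p * p))) = 0
    rw [h1, ← map_evalY_eval, h2, map_zero]
  obtain ⟨φ, hφ⟩ := IntermediateField.exists_algHom_adjoin_of_splits_of_aeval hSint hjmem hy
  -- the invariant
  have hinv : ∀ d : ℕ, d ∣ M → ∀ hd : jS K 1 d ∈
      IntermediateField.adjoin (IntermediateField.adjoin K {qExpand K p (jqModC K)})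
        (divisorExpansionsC K M),
      ∃ (c : Kˣ) (k : ℕ), k ≠ 0 ∧ p * p * (M / d) ∣ k ∧ φ ⟨jS K 1 d, hd⟩ = ι (jS K c k) := by
    intro d
    induction d using Nat.strong_induction_on with
    | _ d ih =>
      intro hdM hd
      rcases eq_or_ne d 1 with rfl | hd1
      · refine ⟨1, M * p * p, Nat.mul_ne_zero (Nat.mul_ne_zero hM hp0) hp0, ?_, ?_⟩
        · rw [Nat.div_one]
          exact ⟨1, by ring⟩
        · have h1 : (⟨jS K 1 1, hd⟩ : IntermediateField.adjoin
              (IntermediateField.adjoin K {qExpand K p (jqModC K)}) (divisorExpansionsC K M)) =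
              ⟨jqModC K, hjmem⟩ := Subtype.ext jS_one_one
          rw [h1, hφ]
      · have hd0 : d ≠ 0 := ne_zero_of_dvd_ne_zero hM hdM
        have hr : d.minFac.Prime := Nat.minFac_prime hd1
        have hrd : d.minFac ∣ d := Nat.minFac_dvd d
        generalize d.minFac = r at hr hrd
        obtain ⟨d', hd'⟩ := hrd
        have hd'0 : d' ≠ 0 := fun h0 => hd0 (by rw [hd', h0, mul_zero])
        have hd'M : d' ∣ M := (Dvd.intro_left _ hd'.symm).trans hdM
        have hd'lt : d' < d := by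
          have h2 := hr.two_le
          calc d' < r * d' := by nlinarith [Nat.pos_of_ne_zero hd'0]
            _ = d := hd'.symm
        have hrM : r ∣ p * M := ((Dvd.intro _ hd'.symm).trans hdM).mul_left p
        obtain ⟨c, k, hk0, hk, hφd'⟩ := ih d' hd'lt hd'M (hgen d' hd'M)
        obtain ⟨Φr, hΦr⟩ := hmod r hr hrM
        obtain ⟨ζr, hζr⟩ := hroot r hr hrM
        have hrel : (evalY (jS K 1 d') Φr).eval (jS K 1 d) = 0 := by
          have := (hΦr.eval_jS hr (1 : Kˣ) d' hd'0).2
          rwa [one_pow, mul_comm d' r, ← hd'] at this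
        have h1 : (evalY (⟨jS K 1 d', hgen d' hd'M⟩ : IntermediateField.adjoin
            (IntermediateField.adjoin K {qExpand K p (jqModC K)}) (divisorExpansionsC K M))
            Φr).eval ⟨jS K 1 d, hd⟩ = 0 := by
          apply Subtype.val_injective
          have := map_evalY_eval (IntermediateField.adjoin
            (IntermediateField.adjoin K {qExpand K p (jqModC K)})
              (divisorExpansionsC K M)).val.toRingHom ⟨jS K 1 d', hgen d' hd'M⟩ ⟨jS K 1 d, hd⟩ Φr
          exact this.trans hrel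
        have hrel' : (evalY (φ ⟨jS K 1 d', hgen d' hd'M⟩) Φr).eval (φ ⟨jS K 1 d, hd⟩) = 0 := by
          have h2 := map_evalY_eval φ.toRingHom ⟨jS K 1 d', hgen d' hd'M⟩ ⟨jS K 1 d, hd⟩ Φr
          rw [h1, map_zero] at h2
          exact h2.symm
        rw [hφd'] at hrel'
        obtain ⟨t, ht⟩ := hdM
        have hMd' : M / d' = r * t := by
          rw [ht, hd', mul_right_comm, Nat.mul_div_cancel _ (Nat.pos_of_ne_zero hd'0)]
        have hMd : M / d = t := by
          rw [ht, Nat.mul_div_cancel_left _ (Nat.pos_of_ne_zero hd0)]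
        rw [hMd'] at hk
        have hrk : r ∣ k := dvd_trans (⟨p * p * t, by ring⟩ : r ∣ p * p * (r * t)) hk
        obtain ⟨c', k', hk'0, hk', hω⟩ := exists_jS_of_root ι hr hΦr ζr hζr c hk0 hrk hrel'
        refine ⟨c', k', hk'0, ?_, hω⟩
        rw [hMd]
        rcases hk' with rfl | rfl
        · exact (dvd_trans (⟨r, by ring⟩ : p * p * t ∣ p * p * (r * t)) hk).mul_right _
        · have h3 : p * p * t * r ∣ k' * r := by
            rwa [show p * p * t * r = p * p * (r * t) by ring]
          exact Nat.dvd_of_mul_dvd_mul_right hr.pos h3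
  -- everything in `K(j(q^d) : d ∣ M)` is sent into the image of `K((q^{p²}))`
  have hKS : ∀ u ∈ IntermediateField.adjoin K (divisorExpansionsC K M),
      ∃ hu : u ∈ IntermediateField.adjoin (IntermediateField.adjoin K {qExpand K p (jqModC K)})
        (divisorExpansionsC K M), φ ⟨u, hu⟩ ∈ (ι.comp (vq (p * p))).fieldRange := by
    intro u hu
    induction hu using IntermediateField.adjoin_induction with
    | mem x hx =>
      obtain ⟨d, hd0, hdM, rfl⟩ := hx
      have hx' : qExpand K d (jqModC K) = jS K 1 d := by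
        rw [jS_one_eq_jqNModC]; rfl
      have hmem' := hgen d hdM
      obtain ⟨c, k, hk0, hk, hφx⟩ := hinv d hdM hmem'
      refine ⟨hx' ▸ hmem', ?_⟩
      have h2 : (⟨qExpand K d (jqModC K), hx' ▸ hmem'⟩ : IntermediateField.adjoin
          (IntermediateField.adjoin K {qExpand K p (jqModC K)}) (divisorExpansionsC K M)) =
          ⟨jS K 1 d, hmem'⟩ := Subtype.ext hx'
      rw [h2, hφx, jS_eq_vq_of_dvd c (Nat.mul_ne_zero hp0 hp0) hk0 ((Dvd.intro _ rfl).trans hk)]
      exact ⟨_, rfl⟩
    | algebraMap a =>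
      have hmemK : algebraMap K (LaurentSeries K) a ∈ IntermediateField.adjoin
          (IntermediateField.adjoin K {qExpand K p (jqModC K)}) (divisorExpansionsC K M) :=
        IntermediateField.algebraMap_mem (IntermediateField.adjoin
          (IntermediateField.adjoin K {qExpand K p (jqModC K)}) (divisorExpansionsC K M))
          (algebraMap K (IntermediateField.adjoin K {qExpand K p (jqModC K)}) a)
      refine ⟨hmemK, ?_⟩
      have h2 : (⟨algebraMap K (LaurentSeries K) a, hmemK⟩ :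
          IntermediateField.adjoin (IntermediateField.adjoin K {qExpand K p (jqModC K)})
            (divisorExpansionsC K M)) =
          algebraMap (IntermediateField.adjoin K {qExpand K p (jqModC K)}) _
            (algebraMap K (IntermediateField.adjoin K {qExpand K p (jqModC K)}) a) :=
        Subtype.ext rfl
      rw [h2, φ.commutes, hφ₀]
      refine ⟨algebraMap K (LaurentSeries K) a, ?_⟩
      have hconst : ∀ n : ℕ, n ≠ 0 → vq n (algebraMap K (LaurentSeries K) a) =
          algebraMap K (LaurentSeries K) a := by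
        intro n hn
        have : NeZero n := ⟨hn⟩
        rw [vq_eq_qExpand n]
        exact (qExpandAlgHomC K n).commutes a
      show ι (vq (p * p) (algebraMap K (LaurentSeries K) a)) = ι (vq M _)
      rw [hconst _ (Nat.mul_ne_zero hp0 hp0)]
      congr 1
      exact (hconst M hM).symm
    | add x y _ _ hx hy =>
      obtain ⟨hx', hx''⟩ := hx
      obtain ⟨hy', hy''⟩ := hy
      refine ⟨add_mem hx' hy', ?_⟩
      have h2 : (⟨x + y, add_mem hx' hy'⟩ : IntermediateField.adjoin
          (IntermediateField.adjoin K {qExpand K p (jqModC K)}) (divisorExpansionsC K M)) =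
          ⟨x, hx'⟩ + ⟨y, hy'⟩ := rfl
      rw [h2, map_add]
      exact add_mem hx'' hy''
    | inv x _ hx =>
      obtain ⟨hx', hx''⟩ := hx
      refine ⟨inv_mem hx', ?_⟩
      have h2 : (⟨x⁻¹, inv_mem hx'⟩ : IntermediateField.adjoin
          (IntermediateField.adjoin K {qExpand K p (jqModC K)}) (divisorExpansionsC K M)) =
          (⟨x, hx'⟩)⁻¹ := rfl
      rw [h2, map_inv₀]
      exact inv_mem hx''
    | mul x y _ _ hx hy =>
      obtain ⟨hx', hx''⟩ := hx
      obtain ⟨hy', hy''⟩ := hy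
      refine ⟨mul_mem hx' hy', ?_⟩
      have h2 : (⟨x * y, mul_mem hx' hy'⟩ : IntermediateField.adjoin
          (IntermediateField.adjoin K {qExpand K p (jqModC K)}) (divisorExpansionsC K M)) =
          ⟨x, hx'⟩ * ⟨y, hy'⟩ := rfl
      rw [h2, map_mul]
      exact mul_mem hx'' hy''
  -- the contradiction at `j(q^p)`
  obtain ⟨hu, g, hg⟩ := hKS _ hmem
  have h3 : (⟨qExpand K p (jqModC K), hu⟩ : IntermediateField.adjoin
      (IntermediateField.adjoin K {qExpand K p (jqModC K)}) (divisorExpansionsC K M)) =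
      algebraMap (IntermediateField.adjoin K {qExpand K p (jqModC K)}) _
        ⟨qExpand K p (jqModC K), hjpE⟩ := Subtype.ext rfl
  rw [h3, φ.commutes, hφ₀] at hg
  have h4 : vq (p * p) g = vq M (qExpand K p (jqModC K)) := ι.injective hg
  rw [← hjSp, vq_jS_one hM hp0] at h4
  have h5 : (vq (p * p) g).coeff (-((M * p : ℕ) : ℤ)) =
      (jS K 1 (M * p)).coeff (-((M * p : ℕ) : ℤ)) := by rw [h4]
  rw [jS_coeff_neg 1 (M * p) (Nat.mul_ne_zero hM hp0), vq_coeff_of_not_dvd (p * p)
    (Nat.mul_ne_zero hp0 hp0)] at h5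
  · simp at h5
  · rw [Int.dvd_neg, Int.natCast_dvd_natCast]
    intro h6
    exact hpM (Nat.dvd_of_mul_dvd_mul_right hp.pos h6)

end Field

section Final

/-- **(B_M).** Let `K` be an algebraically closed field, `p` a prime not dividing `M`, with
`p * M` invertible in `K`. If `j(q^p) ∉ K(j(q))` then `j(q^p) ∉ K(j(q^d) : d ∣ M)`. -/
theorem qExpand_not_mem_fullC (K : Type) [Field K] [IsAlgClosed K] (p M : ℕ) (hp : p.Prime)
    [NeZero M] (hpM : ¬ p ∣ M) (hchar : ((p * M : ℕ) : K) ≠ 0)
    (hmod : ∀ r : ℕ, r.Prime → r ∣ p * M → ∃ Φ, IsModPoly r Φ)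
    (hB : @qExpand K _ p ⟨hp.ne_zero⟩ (jqModC K) ∉ IntermediateField.adjoin K {jqModC K}) :
    @qExpand K _ p ⟨hp.ne_zero⟩ (jqModC K) ∉ ModularCurve.modularFunctionFieldFullC K M := by
  intro hmem
  have : NeZero p := ⟨hp.ne_zero⟩
  have hjSp : jS K 1 p = qExpand K p (jqModC K) := by
    rw [jS_one_eq_jqNModC]; rfl
  exact core (AlgebraicClosure (LaurentSeries K))
    (algebraMap (LaurentSeries K) (AlgebraicClosure (LaurentSeries K))) p M hp (NeZero.ne M) hpM
    hchar hmod (hjSp ▸ hB) (hjSp ▸ hmem)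

/-- `(B_M)` for all the steps of the tower of level `N`, in the shape consumed by
`Fermat.Agent.S28.H53.dedekindPsi_le_relrank`. -/
theorem forall_qExpand_not_mem_fullC (K : Type) [Field K] [IsAlgClosed K] (N : ℕ)
    (hN : (N : K) ≠ 0)
    (hmod : ∀ r : ℕ, r.Prime → r ∣ N → ∃ Φ, IsModPoly r Φ)
    (hB : ∀ (p : ℕ) (hp : p.Prime), p ∣ N →
      @qExpand K _ p ⟨hp.ne_zero⟩ (jqModC K) ∉ IntermediateField.adjoin K {jqModC K}) :
    ∀ (p M : ℕ) (hp : p.Prime), ¬ p ∣ M → M * p ∣ N →
      @qExpand K _ p ⟨hp.ne_zero⟩ (jqModC K) ∉ modularFunctionFieldFullC K M := by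
  intro p M hp hpM hMN
  have hN0 : N ≠ 0 := fun h => hN (by rw [h, Nat.cast_zero])
  have hM0 : M ≠ 0 := fun h => hN0 (by
    rw [h, zero_mul] at hMN
    exact Nat.eq_zero_of_zero_dvd hMN)
  have : NeZero M := ⟨hM0⟩
  have hpMN : p * M ∣ N := by rwa [mul_comm]
  have hchar : ((p * M : ℕ) : K) ≠ 0 := by
    obtain ⟨t, ht⟩ := hpMN
    intro h0
    apply hN
    rw [ht, Nat.cast_mul, h0, zero_mul]
  exact qExpand_not_mem_fullC K p M hp hpM hchar (fun r hr hrd => hmod r hr (hrd.trans hpMN))
    (hB p hp ((Dvd.intro _ rfl).trans hpMN))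

end Final

end Fermat.Agent.S28.H8
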